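import Fermat.Agent.ML.Deg.Comm
import Fermat.Agent.ML.Ihara.CommGen

/-!
# ML / Deg / CommTwo : `[ML-COMM-QL]` two-step forms (against `RIB.iot`, `RIB.Pii`)
-/

set_option autoImplicit false
set_option linter.style.haveILetI false
set_option linter.unusedSectionVars false

noncomputable section

open AlgebraicCurve ModularCurve

namespace Fermat.Agent.ML

open Fermat.Agent.S24 Fermat.Agent.RIB Fermat.Agent.GAL Fermat.Agent.GAL.PC
  Fermat.Agent.GAL.HeckeComm Fermat.Agent.GAL.FFBC Fermat.Agent.GAL.HeckeInputs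

section Cart

variable {X Y Z W Y' W' Z' W'' : ℕ} [NeZero X] [NeZero Y] [NeZero Z] [NeZero W] [NeZero Y']
  [NeZero W'] [NeZero Z'] [NeZero W'']

/-- the base change formula `b^* a_* = a'_* b'^*` holds in the square `(a, b, a', b')`. -/
def IsCart (a : FN X →ₐ[Kb] FN Y) (b : FN X →ₐ[Kb] FN Z) (a' : FN Z →ₐ[Kb] FN W)
    (b' : FN Y →ₐ[Kb] FN W) : Prop :=
  ∀ y : JZero Y, jPull b (jPush a y) = jPush a' (jPull b' y)

/-- composition in the push direction. -/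
theorem IsCart.vcomp {a₀ : FN X →ₐ[Kb] FN Y} {b₀ : FN X →ₐ[Kb] FN Z} {a₀' : FN Z →ₐ[Kb] FN W}
    {b₁ : FN Y →ₐ[Kb] FN W} {a₁ : FN Y →ₐ[Kb] FN Y'} {a₁' : FN W →ₐ[Kb] FN W'}
    {b₂ : FN Y' →ₐ[Kb] FN W'} (h₀ : IsCart a₀ b₀ a₀' b₁) (h₁ : IsCart a₁ b₁ a₁' b₂) :
    IsCart (a₁.comp a₀) b₀ (a₁'.comp a₀') b₂ := fun y => by
  rw [jPush_comp, h₀, h₁, jPush_comp]

/-- composition in the pull direction. -/
theorem IsCart.hcomp {a₀ : FN X →ₐ[Kb] FN Y} {b₀ : FN X →ₐ[Kb] FN Z} {a₁ : FN Z →ₐ[Kb] FN W}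
    {b₀' : FN Y →ₐ[Kb] FN W} {b₁ : FN Z →ₐ[Kb] FN Z'} {a₂ : FN Z' →ₐ[Kb] FN W''}
    {b₁' : FN W →ₐ[Kb] FN W''} (h₀ : IsCart a₀ b₀ a₁ b₀') (h₁ : IsCart a₁ b₁ a₂ b₁') :
    IsCart a₀ (b₁.comp b₀) a₂ (b₁'.comp b₀') := fun y => by
  rw [jPull_comp, h₀, h₁, jPull_comp]

end Cart

/-- the basic cartesian squares, all four levels being arbitrary numerals. -/
theorem isCart_basic {N Nl Nq T l q : ℕ} [NeZero N] [NeZero Nl] [NeZero Nq] [NeZero T] [NeZero l]
    [NeZero q] (hl : l.Prime) (hq : q.Prime) (hne : q ≠ l) (hNl : Nl = N * l) (hNq : Nq = N * q)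
    (hT : T = N * l * q) {ca cb : ℕ} [NeZero ca] [NeZero cb] (hca : ca = 1 ∨ ca = l)
    (hcb : cb = 1 ∨ cb = q) {a : FN N →ₐ[Kb] FN Nl} {b : FN N →ₐ[Kb] FN Nq}
    {a' : FN Nq →ₐ[Kb] FN T} {b' : FN Nl →ₐ[Kb] FN T} (ha : IsDg ca a) (ha' : IsDg ca a')
    (hb : IsDg cb b) (hb' : IsDg cb b') : IsCart a b a' b' := by
  subst hNl hNq
  exact baseChange_gen hl hq hne hT hca hcb ha ha' hb hb'

theorem isDg_alphaUp (M q l : ℕ) [NeZero M] [NeZero q] [NeZero l] : IsDg 1 (alphaUp M q l) :=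
  fun x => by rw [coe_alphaUp, qExpand_one_apply]

theorem isDg_betaUp (M q l : ℕ) [NeZero M] [NeZero q] [NeZero l] : IsDg q (betaUp M q l) :=
  fun x => by rw [coe_betaUp]

/-- degeneracy maps exist as soon as the levels allow it (one prime step, arbitrary numerals). -/
theorem exists_isDg_step (N q T cb : ℕ) [NeZero N] [NeZero q] [NeZero T] [NeZero cb]
    (hT : T = N * q) (hcb : cb = 1 ∨ cb = q) : ∃ b : FN N →ₐ[Kb] FN T, IsDg cb b := by
  subst hT
  rcases hcb with h | h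
  · exact ⟨heckeAlphaBar Kb N q, (isDg_alpha N q).congr h.symm⟩
  · exact ⟨heckeBetaBar Kb N q, (isDg_beta N q).congr h.symm⟩

section Two

variable (M l : ℕ) [NeZero M] [NeZero l]

/-- the field maps of `RIB.iot`, `RIB.Pii`. -/
def iotHom : Fin 3 → (FN M →ₐ[Kb] FN (M * l * l)) :=
  ![(heckeAlphaBar Kb (M * l) l).comp (heckeAlphaBar Kb M l),
    (heckeAlphaBar Kb (M * l) l).comp (heckeBetaBar Kb M l),
    (heckeBetaBar Kb (M * l) l).comp (heckeBetaBar Kb M l)]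

theorem iot_eq_jPull (i : Fin 3) (x : JZero M) : iot M l i x = jPull (iotHom M l i) x := by
  fin_cases i
  · exact (jPull_comp _ _ x).symm
  · exact (jPull_comp _ _ x).symm
  · exact (jPull_comp _ _ x).symm

theorem Pii_eq_jPush (i : Fin 3) (y : JZero (M * l * l)) :
    Pii M l i y = jPush (iotHom M l i) y := by
  fin_cases i
  · exact (jPush_comp _ _ y).symm
  · exact (jPush_comp _ _ y).symm
  · exact (jPush_comp _ _ y).symm

theorem isDg_iotHom (i : Fin 3) : IsDg (l ^ (i : ℕ)) (iotHom M l i) := by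
  fin_cases i
  · exact ((isDg_alpha M l).comp (isDg_alpha (M * l) l)).congr (by simp)
  · exact ((isDg_beta M l).comp (isDg_alpha (M * l) l)).congr (by simp)
  · exact ((isDg_beta M l).comp (isDg_beta (M * l) l)).congr (by simp [pow_two])

end Two

section TwoOne

variable (M : ℕ) {l q : ℕ} [NeZero M] [NeZero l] [NeZero q]

/-- (two steps at `l`) × (one step at `q`), push at `l`, pull at `q`. -/
theorem isCart_iot_step (hl : l.Prime) (hq : q.Prime) (hne : q ≠ l) {Nq T : ℕ} [NeZero Nq]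
    [NeZero T] (hNq : Nq = M * q) (hT : T = M * l * l * q) (i : Fin 3) {cb : ℕ} [NeZero cb]
    (hcb : cb = 1 ∨ cb = q) {b : FN M →ₐ[Kb] FN Nq} {a' : FN Nq →ₐ[Kb] FN T}
    {b' : FN (M * l * l) →ₐ[Kb] FN T} (hb : IsDg cb b) (ha' : IsDg (l ^ (i : ℕ)) a')
    (hb' : IsDg cb b') : IsCart (iotHom M l i) b a' b' := by
  subst hNq
  obtain ⟨b₁, hb₁⟩ := exists_isDg_step (M * l) q (M * q * l) cb (by ring) hcb
  have key : ∀ (c₀ c₁ : ℕ) [NeZero c₀] [NeZero c₁] (a₀ : FN M →ₐ[Kb] FN (M * l))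
      (a₁ : FN (M * l) →ₐ[Kb] FN (M * l * l)), (c₀ = 1 ∨ c₀ = l) → (c₁ = 1 ∨ c₁ = l) →
      IsDg c₀ a₀ → IsDg c₁ a₁ → c₁ * c₀ = l ^ (i : ℕ) → IsCart (a₁.comp a₀) b a' b' := by
    intro c₀ c₁ _ _ a₀ a₁ h₀ h₁ ha₀ ha₁ hc
    obtain ⟨a₀', ha₀'⟩ := exists_isDg_step (M * q) l (M * q * l) c₀ rfl h₀
    obtain ⟨a₁', ha₁'⟩ := exists_isDg_step (M * q * l) l T c₁ (by rw [hT]; ring) h₁
    have e : a' = a₁'.comp a₀' := ha'.ext (ha₀'.comp ha₁') hc.symm
    rw [e]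
    exact (isCart_basic hl hq hne rfl rfl (by ring) h₀ hcb ha₀ ha₀' hb hb₁).vcomp
      (isCart_basic hl hq hne rfl (by ring) (by rw [hT]) h₁ hcb ha₁ ha₁' hb₁ hb')
  fin_cases i
  · exact key 1 1 _ _ (Or.inl rfl) (Or.inl rfl) (isDg_alpha M l) (isDg_alpha (M * l) l) (by simp)
  · exact key l 1 _ _ (Or.inr rfl) (Or.inl rfl) (isDg_beta M l) (isDg_alpha (M * l) l) (by simp)
  · exact key l l _ _ (Or.inr rfl) (Or.inr rfl) (isDg_beta M l) (isDg_beta (M * l) l)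
      (by simp [pow_two])

/-- (one step at `q`) × (two steps at `l`), push at `q`, pull at `l`. -/
theorem isCart_step_iot (hl : l.Prime) (hq : q.Prime) (hne : q ≠ l) {Nq T : ℕ} [NeZero Nq]
    [NeZero T] (hNq : Nq = M * q) (hT : T = M * l * l * q) (i : Fin 3) {cb : ℕ} [NeZero cb]
    (hcb : cb = 1 ∨ cb = q) {b : FN M →ₐ[Kb] FN Nq} {a' : FN Nq →ₐ[Kb] FN T}
    {b' : FN (M * l * l) →ₐ[Kb] FN T} (hb : IsDg cb b) (ha' : IsDg (l ^ (i : ℕ)) a')
    (hb' : IsDg cb b') : IsCart b (iotHom M l i) b' a' := by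
  subst hNq
  obtain ⟨b₁, hb₁⟩ := exists_isDg_step (M * l) q (M * q * l) cb (by ring) hcb
  have key : ∀ (c₀ c₁ : ℕ) [NeZero c₀] [NeZero c₁] (a₀ : FN M →ₐ[Kb] FN (M * l))
      (a₁ : FN (M * l) →ₐ[Kb] FN (M * l * l)), (c₀ = 1 ∨ c₀ = l) → (c₁ = 1 ∨ c₁ = l) →
      IsDg c₀ a₀ → IsDg c₁ a₁ → c₁ * c₀ = l ^ (i : ℕ) → IsCart b (a₁.comp a₀) b' a' := by
    intro c₀ c₁ _ _ a₀ a₁ h₀ h₁ ha₀ ha₁ hc
    obtain ⟨a₀', ha₀'⟩ := exists_isDg_step (M * q) l (M * q * l) c₀ rfl h₀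
    obtain ⟨a₁', ha₁'⟩ := exists_isDg_step (M * q * l) l T c₁ (by rw [hT]; ring) h₁
    have e : a' = a₁'.comp a₀' := ha'.ext (ha₀'.comp ha₁') hc.symm
    rw [e]
    exact (isCart_basic hq hl hne.symm rfl rfl rfl hcb h₀ hb hb₁ ha₀ ha₀').hcomp
      (isCart_basic hq hl hne.symm (by ring) rfl (by rw [hT]; ring) hcb h₁ hb₁ hb' ha₁ ha₁')
  fin_cases i
  · exact key 1 1 _ _ (Or.inl rfl) (Or.inl rfl) (isDg_alpha M l) (isDg_alpha (M * l) l) (by simp)
  · exact key l 1 _ _ (Or.inr rfl) (Or.inl rfl) (isDg_beta M l) (isDg_alpha (M * l) l) (by simp)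
  · exact key l l _ _ (Or.inr rfl) (Or.inr rfl) (isDg_beta M l) (isDg_beta (M * l) l)
      (by simp [pow_two])

end TwoOne

section TwoTwo

variable (M : ℕ) {l l' : ℕ} [NeZero M] [NeZero l] [NeZero l']

/-- (two steps at `l`) × (two steps at `l'`), push at `l`, pull at `l'`. -/
theorem isCart_iot_iot (hl : l.Prime) (hl' : l'.Prime) (hne : l' ≠ l) {T : ℕ} [NeZero T]
    (hT : T = M * l * l * l' * l') (i j : Fin 3) {a' : FN (M * l' * l') →ₐ[Kb] FN T}
    {b' : FN (M * l * l) →ₐ[Kb] FN T} (ha' : IsDg (l ^ (i : ℕ)) a') (hb' : IsDg (l' ^ (j : ℕ)) b') :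
    IsCart (iotHom M l i) (iotHom M l' j) a' b' := by
  have key : ∀ (c₀ c₁ : ℕ) [NeZero c₀] [NeZero c₁] (b₀ : FN M →ₐ[Kb] FN (M * l'))
      (b₁ : FN (M * l') →ₐ[Kb] FN (M * l' * l')), (c₀ = 1 ∨ c₀ = l') → (c₁ = 1 ∨ c₁ = l') →
      IsDg c₀ b₀ → IsDg c₁ b₁ → c₁ * c₀ = l' ^ (j : ℕ) →
      IsCart (iotHom M l i) (b₁.comp b₀) a' b' := by
    intro c₀ c₁ _ _ b₀ b₁ h₀ h₁ hb₀ hb₁ hc
    obtain ⟨b₀', hb₀'⟩ := exists_isDg_step (M * l * l) l' (M * l' * l * l) c₀ (by ring) h₀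
    obtain ⟨b₁', hb₁'⟩ := exists_isDg_step (M * l' * l * l) l' T c₁ (by rw [hT]; ring) h₁
    have e : b' = b₁'.comp b₀' := hb'.ext (hb₀'.comp hb₁') hc.symm
    rw [e]
    exact (isCart_iot_step M hl hl' hne rfl (by ring) i h₀ hb₀ (isDg_iotHom (M * l') l i)
      hb₀').hcomp (isCart_iot_step (M * l') hl hl' hne rfl (by rw [hT]; ring) i h₁ hb₁ ha' hb₁')
  fin_cases j
  · exact key 1 1 _ _ (Or.inl rfl) (Or.inl rfl) (isDg_alpha M l') (isDg_alpha (M * l') l')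
      (by simp)
  · exact key l' 1 _ _ (Or.inr rfl) (Or.inl rfl) (isDg_beta M l') (isDg_alpha (M * l') l')
      (by simp)
  · exact key l' l' _ _ (Or.inr rfl) (Or.inr rfl) (isDg_beta M l') (isDg_beta (M * l') l')
      (by simp [pow_two])

end TwoTwo

section DgCast

variable {M N N' : ℕ} [NeZero M] [NeZero N] [NeZero N']

theorem castJ_jPull_of_isDg (h : N = N') {c c' : ℕ} [NeZero c] [NeZero c']
    {φ : FN M →ₐ[Kb] FN N} {φ' : FN M →ₐ[Kb] FN N'} (hφ : IsDg c φ) (hφ' : IsDg c' φ')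
    (hc : c = c') (x : JZero M) : castJ h (jPull φ x) = jPull φ' x := by
  subst hc
  exact castJ_jPull h φ φ' (fun z => (hφ z).trans (hφ' z).symm) x

theorem jPush_castJ_of_isDg (h : N = N') {c c' : ℕ} [NeZero c] [NeZero c']
    {φ : FN M →ₐ[Kb] FN N} {φ' : FN M →ₐ[Kb] FN N'} (hφ : IsDg c φ) (hφ' : IsDg c' φ')
    (hc : c = c') (y : JZero N) : jPush φ' (castJ h y) = jPush φ y := by
  subst hc
  exact jPush_castJ h φ φ' (fun z => (hφ z).trans (hφ' z).symm) y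

end DgCast

section Wrap21

variable (M q l : ℕ) [NeZero M] [NeZero q] [NeZero l]

theorem sw2_lev : M * q * l * l = M * l * l * q := by ring

/-- the identification `J₀(M q l l) = J₀(M l l q)`. -/
abbrev sw2 : JZero (M * q * l * l) ≃+ JZero (M * l * l * q) := castJ (sw2_lev M q l)

theorem sw2_symm_apply (y : JZero (M * l * l * q)) :
    (sw2 M q l).symm y = castJ (sw2_lev M q l).symm y := castJ_symm_apply _ y

/-! ### pull - pull -/

theorem sw2_iot_pullA (i : Fin 3) (x : JZero M) :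
    sw2 M q l (iot (M * q) l i (pullA M q x)) = pullA (M * l * l) q (iot M l i x) := by
  rw [iot_eq_jPull, iot_eq_jPull, pullA_eq_jPull, pullA_eq_jPull, ← jPull_comp, ← jPull_comp]
  exact castJ_jPull_of_isDg _ ((isDg_alpha M q).comp (isDg_iotHom (M * q) l i))
    ((isDg_iotHom M l i).comp (isDg_alpha (M * l * l) q)) (mul_comm _ _) x

theorem sw2_iot_pullB (i : Fin 3) (x : JZero M) :
    sw2 M q l (iot (M * q) l i (pullB M q x)) = pullB (M * l * l) q (iot M l i x) := by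
  rw [iot_eq_jPull, iot_eq_jPull, pullB_eq_jPull, pullB_eq_jPull, ← jPull_comp, ← jPull_comp]
  exact castJ_jPull_of_isDg _ ((isDg_beta M q).comp (isDg_iotHom (M * q) l i))
    ((isDg_iotHom M l i).comp (isDg_beta (M * l * l) q)) (mul_comm _ _) x

/-! ### push - push -/

theorem Pii_pushA_sw2 (i : Fin 3) (y : JZero (M * q * l * l)) :
    Pii M l i (SS.pushA (M * l * l) q (sw2 M q l y)) = SS.pushA M q (Pii (M * q) l i y) := by
  rw [Pii_eq_jPush, Pii_eq_jPush, pushA_eq_jPush, pushA_eq_jPush, ← jPush_comp, ← jPush_comp]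
  exact jPush_castJ_of_isDg _ ((isDg_alpha M q).comp (isDg_iotHom (M * q) l i))
    ((isDg_iotHom M l i).comp (isDg_alpha (M * l * l) q)) (mul_comm _ _) y

theorem Pii_pushB_sw2 (i : Fin 3) (y : JZero (M * q * l * l)) :
    Pii M l i (SS.pushB (M * l * l) q (sw2 M q l y)) = SS.pushB M q (Pii (M * q) l i y) := by
  rw [Pii_eq_jPush, Pii_eq_jPush, pushB_eq_jPush, pushB_eq_jPush, ← jPush_comp, ← jPush_comp]
  exact jPush_castJ_of_isDg _ ((isDg_beta M q).comp (isDg_iotHom (M * q) l i))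
    ((isDg_iotHom M l i).comp (isDg_beta (M * l * l) q)) (mul_comm _ _) y

variable {q l}

/-! ### push at `l`, pull at `q` -/

theorem Pii_sw2_symm_pullA (hq : q.Prime) (hl : l.Prime) (hne : q ≠ l) (i : Fin 3)
    (z : JZero (M * l * l)) :
    Pii (M * q) l i ((sw2 M q l).symm (pullA (M * l * l) q z)) = pullA M q (Pii M l i z) := by
  have hb' : IsDg 1 ((castLevel (sw2_lev M q l).symm).comp (heckeAlphaBar Kb (M * l * l) q)) :=
    ((isDg_alpha (M * l * l) q).comp (isDg_castLevel _)).congr (one_mul 1)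
  rw [sw2_symm_apply, Pii_eq_jPush, Pii_eq_jPush, pullA_eq_jPull, pullA_eq_jPull,
    castJ_jPull_of_isDg _ (isDg_alpha (M * l * l) q) hb' rfl]
  exact (isCart_iot_step M hl hq hne rfl (sw2_lev M q l) i (Or.inl rfl) (isDg_alpha M q)
    (isDg_iotHom (M * q) l i) hb' z).symm

theorem Pii_sw2_symm_pullB (hq : q.Prime) (hl : l.Prime) (hne : q ≠ l) (i : Fin 3)
    (z : JZero (M * l * l)) :
    Pii (M * q) l i ((sw2 M q l).symm (pullB (M * l * l) q z)) = pullB M q (Pii M l i z) := by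
  have hb' : IsDg q ((castLevel (sw2_lev M q l).symm).comp (heckeBetaBar Kb (M * l * l) q)) :=
    ((isDg_beta (M * l * l) q).comp (isDg_castLevel _)).congr (one_mul q)
  rw [sw2_symm_apply, Pii_eq_jPush, Pii_eq_jPush, pullB_eq_jPull, pullB_eq_jPull,
    castJ_jPull_of_isDg _ (isDg_beta (M * l * l) q) hb' rfl]
  exact (isCart_iot_step M hl hq hne rfl (sw2_lev M q l) i (Or.inr rfl) (isDg_beta M q)
    (isDg_iotHom (M * q) l i) hb' z).symm

/-! ### push at `q`, pull at `l` -/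

theorem pushA_sw2_iot (hq : q.Prime) (hl : l.Prime) (hne : q ≠ l) (i : Fin 3)
    (w : JZero (M * q)) :
    SS.pushA (M * l * l) q (sw2 M q l (iot (M * q) l i w)) = iot M l i (SS.pushA M q w) := by
  have ha' : IsDg (l ^ (i : ℕ)) ((castLevel (sw2_lev M q l)).comp (iotHom (M * q) l i)) :=
    ((isDg_iotHom (M * q) l i).comp (isDg_castLevel _)).congr (one_mul _)
  rw [iot_eq_jPull, iot_eq_jPull, pushA_eq_jPush, pushA_eq_jPush,
    castJ_jPull_of_isDg _ (isDg_iotHom (M * q) l i) ha' rfl]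
  exact (isCart_step_iot M hl hq hne rfl rfl i (Or.inl rfl) (isDg_alpha M q) ha'
    (isDg_alpha (M * l * l) q) w).symm

theorem pushB_sw2_iot (hq : q.Prime) (hl : l.Prime) (hne : q ≠ l) (i : Fin 3)
    (w : JZero (M * q)) :
    SS.pushB (M * l * l) q (sw2 M q l (iot (M * q) l i w)) = iot M l i (SS.pushB M q w) := by
  have ha' : IsDg (l ^ (i : ℕ)) ((castLevel (sw2_lev M q l)).comp (iotHom (M * q) l i)) :=
    ((isDg_iotHom (M * q) l i).comp (isDg_castLevel _)).congr (one_mul _)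
  rw [iot_eq_jPull, iot_eq_jPull, pushB_eq_jPush, pushB_eq_jPush,
    castJ_jPull_of_isDg _ (isDg_iotHom (M * q) l i) ha' rfl]
  exact (isCart_step_iot M hl hq hne rfl rfl i (Or.inr rfl) (isDg_beta M q) ha'
    (isDg_beta (M * l * l) q) w).symm

end Wrap21

section Wrap22

variable (M l l' : ℕ) [NeZero M] [NeZero l] [NeZero l']

theorem sw22_lev : M * l * l * l' * l' = M * l' * l' * l * l := by ring

/-- the identification `J₀(M l l l' l') = J₀(M l' l' l l)`. -/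
abbrev sw22 : JZero (M * l * l * l' * l') ≃+ JZero (M * l' * l' * l * l) := castJ (sw22_lev M l l')

theorem sw22_symm_apply (y : JZero (M * l' * l' * l * l)) :
    (sw22 M l l').symm y = sw22 M l' l y := castJ_symm_apply _ y

theorem sw22_sw22 (y : JZero (M * l * l * l' * l')) : sw22 M l' l (sw22 M l l' y) = y := by
  rw [← sw22_symm_apply, AddEquiv.symm_apply_apply]

theorem sw22_iot_iot (i j : Fin 3) (x : JZero M) :
    sw22 M l l' (iot (M * l * l) l' j (iot M l i x)) = iot (M * l' * l') l i (iot M l' j x) := by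
  rw [iot_eq_jPull, iot_eq_jPull, iot_eq_jPull, iot_eq_jPull, ← jPull_comp, ← jPull_comp]
  exact castJ_jPull_of_isDg _ ((isDg_iotHom M l i).comp (isDg_iotHom (M * l * l) l' j))
    ((isDg_iotHom M l' j).comp (isDg_iotHom (M * l' * l') l i)) (mul_comm _ _) x

theorem Pii_Pii_sw22 (i j : Fin 3) (y : JZero (M * l * l * l' * l')) :
    Pii M l' j (Pii (M * l' * l') l i (sw22 M l l' y)) = Pii M l i (Pii (M * l * l) l' j y) := by
  rw [Pii_eq_jPush, Pii_eq_jPush, Pii_eq_jPush, Pii_eq_jPush, ← jPush_comp, ← jPush_comp]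
  exact jPush_castJ_of_isDg _ ((isDg_iotHom M l i).comp (isDg_iotHom (M * l * l) l' j))
    ((isDg_iotHom M l' j).comp (isDg_iotHom (M * l' * l') l i)) (mul_comm _ _) y

variable {l l'}

theorem Pii_sw22_iot (hl : l.Prime) (hl' : l'.Prime) (hne : l' ≠ l) (i j : Fin 3)
    (z : JZero (M * l * l)) :
    Pii (M * l' * l') l i (sw22 M l l' (iot (M * l * l) l' j z)) = iot M l' j (Pii M l i z) := by
  have hb' : IsDg (l' ^ (j : ℕ)) ((castLevel (sw22_lev M l l')).comp (iotHom (M * l * l) l' j)) :=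
    ((isDg_iotHom (M * l * l) l' j).comp (isDg_castLevel _)).congr (one_mul _)
  rw [iot_eq_jPull, iot_eq_jPull, Pii_eq_jPush, Pii_eq_jPush,
    castJ_jPull_of_isDg _ (isDg_iotHom (M * l * l) l' j) hb' rfl]
  exact (isCart_iot_iot M hl hl' hne (sw22_lev M l l').symm i j (isDg_iotHom (M * l' * l') l i)
    hb' z).symm

end Wrap22

end Fermat.Agent.ML
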