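import Fermat.Agent.RIB.Deg
import Fermat.Agent.RIB.Deg.Fun
import Fermat.Agent.RIB.Main.Defs
import Fermat.Agent.S36.Mod.AL2
import Fermat.Agent.S36.Kum.Level
import Fermat.Agent.ML.Ihara.Comm

/-!
# ML / Deg / Comm : `[ML-COMM-QL]` the degeneracy maps at two distinct primes `q ≠ l` commute

`M` is ARBITRARY (`q ∣ M`, `l ∣ M` allowed).

* `castJ (h : N = N') : JZero N ≃+ JZero N'` and its compatibilities (Galois, Hecke, `thetaPart`, `WS`, `jPull`, `jPush`);
* `swJ M q l : JZero (M*q*l) ≃+ JZero (M*l*q)`;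
* (PP) `swJ_pullX_pullY`, (SS) `pushX_pushY_swJ`, (SP) `pushX_swJ_pullY` (base change), `X, Y ∈ {A, B}`;
* generation of `F_{Mql}` by `F_{Mq}` and `F_{Ml}` for the four squares: `sq_gen_AA`, `sq_gen_AB`, `sq_gen_BA`, `sq_gen_BB`
  (`subfield_eq_top_pair`: `F_T = Kb(j, j_{d₁}, j_{d₂})` if `T ∣ lcm d₁ d₂`; `(β,β)` by the Fricke involution).
-/

set_option autoImplicit false
set_option linter.style.haveILetI false
set_option linter.unusedSectionVars false

noncomputable section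

open AlgebraicCurve ModularCurve IntermediateField
open scoped MatrixGroups

namespace Fermat.Agent.ML

open Fermat.Agent.S24 Fermat.Agent.RIB Fermat.Agent.GAL Fermat.Agent.GAL.PC
  Fermat.Agent.GAL.HeckeComm Fermat.Agent.GAL.FFBC Fermat.Agent.GAL.HeckeInputs
  Fermat.Agent.GAL.FFExt

local notation "GQ" => (AlgebraicClosure ℚ ≃ₐ[ℚ] AlgebraicClosure ℚ)


section Cast

/-- the identification `J₀(N) = J₀(N')` for `N = N'`. -/
def castJ {N N' : ℕ} [NeZero N] [NeZero N'] (h : N = N') : JZero N ≃+ JZero N' := by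
  subst h
  exact AddEquiv.refl _

variable {N N' N'' : ℕ} [NeZero N] [NeZero N'] [NeZero N'']

@[simp] theorem castJ_rfl (x : JZero N) : castJ (rfl : N = N) x = x := rfl

theorem castJ_symm (h : N = N') : (castJ h).symm = castJ h.symm := by
  subst h; rfl

@[simp] theorem castJ_castJ (h : N = N') (h' : N' = N'') (x : JZero N) :
    castJ h' (castJ h x) = castJ (h.trans h') x := by
  subst h; subst h'; rfl

@[simp] theorem castJ_symm_apply (h : N = N') (x : JZero N') :
    (castJ h).symm x = castJ h.symm x := by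
  subst h; rfl

theorem castJ_smul (h : N = N') (σ : GQ) (x : JZero N) : castJ h (σ • x) = σ • castJ h x := by
  subst h; rfl

theorem castJ_hecke (h : N = N') (r : Nat.Primes) (x : JZero N) :
    castJ h (heckeOperatorBar N r x) = heckeOperatorBar N' r (castJ h x) := by
  subst h; rfl

theorem castJ_mem_thetaPart (h : N = N') {p : ℕ} {S : Set ℕ} {θ : ℕ → ℤ} {x : JZero N} :
    castJ h x ∈ thetaPart N' p S θ ↔ x ∈ thetaPart N p S θ := by
  subst h; rfl

theorem castJ_mem_WS (h : N = N') {p : ℕ} {S : Set ℕ} {θ : ℕ → ℤ} {x : JZero N} :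
    castJ h x ∈ WS N' p S θ ↔ x ∈ WS N p S θ := by
  subst h; rfl

/-- `jPull` only depends on the effect on `q`-expansions. -/
theorem castJ_jPull {M : ℕ} [NeZero M] (h : N = N') (φ : FN M →ₐ[Kb] FN N)
    (φ' : FN M →ₐ[Kb] FN N')
    (hφ : ∀ x, ((φ x : FN N) : LaurentSeries Kb) = φ' x) (x : JZero M) :
    castJ h (jPull φ x) = jPull φ' x := by
  subst h
  have h1 : φ = φ' := AlgHom.ext fun x => Subtype.ext (hφ x)
  subst h1
  rfl

theorem jPush_castJ {M : ℕ} [NeZero M] (h : N = N') (φ : FN M →ₐ[Kb] FN N)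
    (φ' : FN M →ₐ[Kb] FN N')
    (hφ : ∀ x, ((φ x : FN N) : LaurentSeries Kb) = φ' x) (y : JZero N) :
    jPush φ' (castJ h y) = jPush φ y := by
  subst h
  have h1 : φ = φ' := AlgHom.ext fun x => Subtype.ext (hφ x)
  subst h1
  rfl

/-- change of the source level. -/
theorem jPull_castJ {M : ℕ} [NeZero M] (h : N = N') (φ : FN N →ₐ[Kb] FN M)
    (φ' : FN N' →ₐ[Kb] FN M)
    (hφ : ∀ x : FN N, φ' (castLevel h x) = φ x) (x : JZero N) :
    jPull φ' (castJ h x) = jPull φ x := by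
  subst h
  have h1 : φ = φ' := AlgHom.ext fun x => by
    rw [← hφ x]
    congr 1
  subst h1
  rfl

theorem castJ_jPush {M : ℕ} [NeZero M] (h : N = N') (φ : FN N →ₐ[Kb] FN M)
    (φ' : FN N' →ₐ[Kb] FN M)
    (hφ : ∀ x : FN N, φ' (castLevel h x) = φ x) (y : JZero M) :
    castJ h (jPush φ y) = jPush φ' y := by
  subst h
  have h1 : φ = φ' := AlgHom.ext fun x => by
    rw [← hφ x]
    congr 1
  subst h1
  rfl

end Cast

section Gen

/-- two conjugations which agree on `j_{d₁}` and `j_{d₂}` agree, if `lcm d₁ d₂ = M`. -/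
theorem sigma_jBar_pair_injective (M d₁ d₂ : ℕ) [NeZero M] [NeZero d₁] [NeZero d₂] (h₁ : d₁ ∣ M)
    (h₂ : d₂ ∣ M) (hl : M ∣ Nat.lcm d₁ d₂) (x y : XN M)
    (e₁ : sigma M x (jBar M d₁ h₁) = sigma M y (jBar M d₁ h₁))
    (e₂ : sigma M x (jBar M d₂ h₂) = sigma M y (jBar M d₂ h₂)) : x = y := by
  have hinv := jfun_isSLInvariant
  have hpole := jfun_hasSimplePoleAtImInfty
  induction x using QuotientGroup.induction_on with
  | H g =>
  induction y using QuotientGroup.induction_on with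
  | H h =>
    simp only [sigma_mk hinv] at e₁ e₂
    have key : ∀ (d : ℕ) [NeZero d] (hd : d ∣ M),
        sigma0 M g (jBar M d hd) = sigma0 M h (jBar M d hd) →
          g⁻¹ * h ∈ CongruenceSubgroup.Gamma0 d := by
      intro d _ hd e
      simp only [sigma0_jBar] at e
      have h2 := IsFractionRing.injective Hol Mer e
      apply mem_Gamma0_of_comp_diag_eq hinv hpole
      intro τ
      have h3 := congrFun (congrArg Subtype.val h2) (h • τ)
      rw [actHol_apply, actHol_apply, inv_smul_smul] at h3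
      rw [mul_smul, ← scal_eq_smul, ← scal_eq_smul]
      exact h3
    have k₁ := key d₁ h₁ e₁
    have k₂ := key d₂ h₂ e₂
    rw [QuotientGroup.eq]
    rw [CongruenceSubgroup.Gamma0_mem] at k₁ k₂ ⊢
    rw [ZMod.intCast_zmod_eq_zero_iff_dvd] at k₁ k₂ ⊢
    rw [Int.natCast_dvd] at k₁ k₂ ⊢
    exact hl.trans (Nat.lcm_dvd k₁ k₂)

/-- `F_M = Kb(j, j_{d₁}, j_{d₂})` if `lcm d₁ d₂ = M`. -/
theorem subfield_eq_top_pair (M d₁ d₂ : ℕ) [NeZero M] [NeZero d₁] [NeZero d₂] (h₁ : d₁ ∣ M)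
    (h₂ : d₂ ∣ M) (hl : M ∣ Nat.lcm d₁ d₂) (S : Subfield (FN M))
    (hK : ∀ a : Kb, algebraMap Kb (FN M) a ∈ S) (hj : jF M ∈ S)
    (hj₁ : jBar M d₁ h₁ ∈ S) (hj₂ : jBar M d₂ h₂ ∈ S) : S = ⊤ := by
  classical
  have hinv := jfun_isSLInvariant
  have hdeg := degree_of_charpolyCoeff M (CPAlt.charpolyCoeff M)
  haveI := hdeg.1
  set t₁ := jBar M d₁ h₁ with ht₁
  set t₂ := jBar M d₂ h₂ with ht₂
  let E : IntermediateField Kb⟮jF M⟯ (FN M) := IntermediateField.adjoin Kb⟮jF M⟯ {t₁, t₂}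
  letI : Algebra Kb⟮jF M⟯ Mer := ((ThetaMer M).comp (algebraMap Kb⟮jF M⟯ (FN M))).toAlgebra
  let τ : XN M → (FN M →ₐ[Kb⟮jF M⟯] Mer) := fun x =>
    { toRingHom := sigma M x
      commutes' := fun a => by
        refine agree_on_adjoin (jF M) (sigma M x) (ThetaMer M) ?_ ?_ a
        · intro a
          rw [sigma_algebraMap, ThetaMer_algebraMap]
        · rw [sigma_jF hinv, ThetaMer_jF] }
  let τ' : XN M → (E →ₐ[Kb⟮jF M⟯] Mer) := fun x => (τ x).comp E.val
  have hτ' : Function.Injective τ' := by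
    intro x y hxy
    have e₁ := DFunLike.congr_fun hxy
      ⟨t₁, IntermediateField.subset_adjoin _ _ (Set.mem_insert t₁ {t₂})⟩
    have e₂ := DFunLike.congr_fun hxy
      ⟨t₂, IntermediateField.subset_adjoin _ _ (Set.mem_insert_of_mem t₁ (Set.mem_singleton t₂))⟩
    exact sigma_jBar_pair_injective M d₁ d₂ h₁ h₂ hl x y e₁ e₂
  have h1 : Nat.card (XN M) ≤ Module.finrank Kb⟮jF M⟯ E :=
    (Nat.card_le_card_of_injective τ' hτ').trans (card_algHom_le_finrank _ _ _)
  have hE : E = ⊤ := by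
    apply IntermediateField.eq_of_le_of_finrank_le le_top
    rw [IntermediateField.finrank_top', hdeg.2]
    exact h1
  have h2 : ∀ a : Kb⟮jF M⟯, algebraMap Kb⟮jF M⟯ (FN M) a ∈ S := by
    intro a
    have : (Kb⟮jF M⟯).toSubfield ≤ S := by
      show Subfield.closure _ ≤ _
      rw [Subfield.closure_le]
      rintro x (⟨a, rfl⟩ | hx)
      · exact hK a
      · rw [Set.mem_singleton_iff] at hx
        rw [hx]
        exact hj
    exact this a.2
  have h3 : E.toSubfield ≤ S := by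
    show Subfield.closure _ ≤ _
    rw [Subfield.closure_le]
    rintro x (⟨a, rfl⟩ | hx)
    · exact h2 a
    · rcases hx with hx | hx
      · rw [hx]; exact hj₁
      · rw [Set.mem_singleton_iff] at hx
        rw [hx]; exact hj₂
  rw [hE] at h3
  exact top_le_iff.1 (fun x _ => h3 (show x ∈ (⊤ : IntermediateField Kb⟮jF M⟯ (FN M)) from trivial))

/-- the Fricke involution of level `L`. -/
def fricke (L : ℕ) [NeZero L] : FN L →+* FN L :=
  S36.alW L 1 L (one_mul L).symm 1 ((L : ℤ) - 1) (by push_cast; ring)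

theorem fricke_fricke (L : ℕ) [NeZero L] (f : FN L) : fricke L (fricke L f) = f :=
  S36.alW_alW _ _ _ _ _ _ _ f

theorem fricke_algebraMap (L : ℕ) [NeZero L] (a : Kb) :
    fricke L (algebraMap Kb _ a) = algebraMap Kb _ a :=
  S36.alW_algebraMap _ _ _ _ _ _ _ a

theorem fricke_jBar (L e e' : ℕ) [NeZero L] [NeZero e] [NeZero e'] (he : e * e' = L) :
    fricke L (jBar L e ⟨e', he.symm⟩) = jBar L e' ⟨e, by rw [← he, mul_comm]⟩ :=
  S36.alW_jBar' L 1 L _ _ _ _ 1 e e' e e' dvd_rfl he (mul_one e).symm (mul_one e').symm _ _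

/-- `F_M = Kb(j_M, j_{e₁}, j_{e₂})` if `gcd e₁ e₂ = 1`. -/
theorem subfield_eq_top_pair' (M e₁ e₂ d₁ d₂ : ℕ) [NeZero M] [NeZero e₁] [NeZero e₂] [NeZero d₁]
    [NeZero d₂] (h₁ : e₁ * d₁ = M) (h₂ : e₂ * d₂ = M) (hl : M ∣ Nat.lcm d₁ d₂) (S : Subfield (FN M))
    (hK : ∀ a : Kb, algebraMap Kb (FN M) a ∈ S) (hj : jBar M M dvd_rfl ∈ S)
    (hj₁ : jBar M e₁ ⟨d₁, h₁.symm⟩ ∈ S) (hj₂ : jBar M e₂ ⟨d₂, h₂.symm⟩ ∈ S) : S = ⊤ := by
  have key : S.comap (fricke M) = ⊤ := by
    refine subfield_eq_top_pair M d₁ d₂ ⟨e₁, by rw [← h₁, mul_comm]⟩ ⟨e₂, by rw [← h₂, mul_comm]⟩ hl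
      _ ?_ ?_ ?_ ?_
    · intro a
      rw [Subfield.mem_comap, fricke_algebraMap]
      exact hK a
    · rw [Subfield.mem_comap]
      have := fricke_jBar M 1 M (one_mul M)
      rw [show jF M = jBar M 1 ⟨M, (one_mul M).symm⟩ from rfl, this]
      exact hj
    · rw [Subfield.mem_comap, fricke_jBar M d₁ e₁ (by rw [← h₁, mul_comm])]
      exact hj₁
    · rw [Subfield.mem_comap, fricke_jBar M d₂ e₂ (by rw [← h₂, mul_comm])]
      exact hj₂
  refine top_le_iff.1 fun f _ => ?_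
  have : fricke M f ∈ S.comap (fricke M) := by rw [key]; trivial
  rw [Subfield.mem_comap, fricke_fricke] at this
  exact this

end Gen


section Squares

variable (M q l : ℕ) [NeZero M] [NeZero q] [NeZero l]

/-- `α_q` at level `M l`, landing in level `M q l`. -/
def alphaUp : FN (M * l) →ₐ[Kb] FN (M * q * l) :=
  (castLevel (Nat.mul_right_comm M l q)).comp (heckeAlphaBar Kb (M * l) q)

theorem coe_alphaUp (x : FN (M * l)) :
    ((alphaUp M q l x : FN (M * q * l)) : LaurentSeries Kb) = (x : LaurentSeries Kb) := by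
  rw [alphaUp, AlgHom.comp_apply, coe_castLevel, coe_heckeAlphaBar]

theorem sq_comm_AA : (heckeAlphaBar Kb (M * q) l).comp (heckeAlphaBar Kb M q) =
    (alphaUp M q l).comp (heckeAlphaBar Kb M l) := by
  refine AlgHom.ext fun x => Subtype.ext ?_
  rw [AlgHom.comp_apply, AlgHom.comp_apply, coe_heckeAlphaBar, coe_heckeAlphaBar, coe_alphaUp,
    coe_heckeAlphaBar]

theorem sq_comm_AB : (heckeAlphaBar Kb (M * q) l).comp (heckeBetaBar Kb M q) =
    (betaUp M q l).comp (heckeAlphaBar Kb M l) := square_comm M q l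

theorem sq_comm_BA : (heckeBetaBar Kb (M * q) l).comp (heckeAlphaBar Kb M q) =
    (alphaUp M q l).comp (heckeBetaBar Kb M l) := by
  refine AlgHom.ext fun x => Subtype.ext ?_
  rw [AlgHom.comp_apply, AlgHom.comp_apply, coe_heckeBetaBar, coe_heckeAlphaBar, coe_alphaUp,
    coe_heckeBetaBar]

theorem sq_comm_BB : (heckeBetaBar Kb (M * q) l).comp (heckeBetaBar Kb M q) =
    (betaUp M q l).comp (heckeBetaBar Kb M l) := by
  refine AlgHom.ext fun x => Subtype.ext ?_
  rw [AlgHom.comp_apply, AlgHom.comp_apply, coe_heckeBetaBar, coe_heckeBetaBar, coe_betaUp,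
    coe_heckeBetaBar, qExpand_qExpand, qExpand_qExpand]
  exact ModularCurve.qExpand_congr (mul_comm l q) _

theorem const_mem_of_alpha {S : Subfield (FN (M * q * l))}
    (h1 : ∀ z, heckeAlphaBar Kb (M * q) l z ∈ S) (a : Kb) : algebraMap Kb (FN (M * q * l)) a ∈ S := by
  rw [← (heckeAlphaBar Kb (M * q) l).commutes a]
  exact h1 _

theorem const_mem_of_beta {S : Subfield (FN (M * q * l))}
    (h1 : ∀ z, heckeBetaBar Kb (M * q) l z ∈ S) (a : Kb) : algebraMap Kb (FN (M * q * l)) a ∈ S := by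
  rw [← (heckeBetaBar Kb (M * q) l).commutes a]
  exact h1 _

theorem lvl_dvd_lcm (hq : q.Prime) (hl : l.Prime) (hne : q ≠ l) :
    M * q * l ∣ Nat.lcm (M * q) (M * l) := by
  rw [Nat.lcm_mul_left, ((Nat.coprime_primes hq hl).2 hne).lcm_eq_mul, mul_assoc]

theorem sq_gen_AA (hq : q.Prime) (hl : l.Prime) (hne : q ≠ l) (S : Subfield (FN (M * q * l)))
    (h1 : ∀ z, heckeAlphaBar Kb (M * q) l z ∈ S) (h2 : ∀ y, alphaUp M q l y ∈ S) : S = ⊤ := by
  refine subfield_eq_top_pair (M * q * l) (M * q) (M * l) (Dvd.intro _ rfl)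
    ⟨q, by ring⟩ (lvl_dvd_lcm M q l hq hl hne) S (const_mem_of_alpha M q l h1) ?_ ?_ ?_
  · have : jF (M * q * l) = heckeAlphaBar Kb (M * q) l (jF (M * q)) := by
      apply Subtype.ext
      rw [coe_heckeAlphaBar]
      rfl
    rw [this]
    exact h1 _
  · have : jBar (M * q * l) (M * q) (Dvd.intro _ rfl) =
        heckeAlphaBar Kb (M * q) l (jBar (M * q) (M * q) dvd_rfl) := by
      apply Subtype.ext
      rw [coe_heckeAlphaBar]
      rfl
    rw [this]
    exact h1 _
  · have : jBar (M * q * l) (M * l) ⟨q, by ring⟩ =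
        alphaUp M q l (jBar (M * l) (M * l) dvd_rfl) := by
      apply Subtype.ext
      rw [coe_alphaUp]
      rfl
    rw [this]
    exact h2 _

theorem sq_gen_AB (S : Subfield (FN (M * q * l)))
    (h1 : ∀ z, heckeAlphaBar Kb (M * q) l z ∈ S) (h2 : ∀ y, betaUp M q l y ∈ S) : S = ⊤ :=
  square_gen M q l S h1 h2

theorem jBar_top_eq_beta : jBar (M * q * l) (M * q * l) dvd_rfl =
    heckeBetaBar Kb (M * q) l (jBar (M * q) (M * q) dvd_rfl) := by
  apply Subtype.ext
  rw [coe_heckeBetaBar, coe_jBar, coe_jBar, jqNModC, jqNModC, qExpand_qExpand]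
  exact ModularCurve.qExpand_congr (by ring) _

theorem sq_gen_BA (S : Subfield (FN (M * q * l)))
    (h1 : ∀ z, heckeBetaBar Kb (M * q) l z ∈ S) (h2 : ∀ y, alphaUp M q l y ∈ S) : S = ⊤ := by
  refine subfield_eq_top (M * q * l) S (const_mem_of_beta M q l h1) ?_ ?_
  · have : jF (M * q * l) = alphaUp M q l (jF (M * l)) := by
      apply Subtype.ext
      rw [coe_alphaUp]
      rfl
    rw [this]
    exact h2 _
  · rw [jBar_top_eq_beta]
    exact h1 _

theorem sq_gen_BB (hq : q.Prime) (hl : l.Prime) (hne : q ≠ l) (S : Subfield (FN (M * q * l)))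
    (h1 : ∀ z, heckeBetaBar Kb (M * q) l z ∈ S) (h2 : ∀ y, betaUp M q l y ∈ S) : S = ⊤ := by
  refine subfield_eq_top_pair' (M * q * l) l q (M * q) (M * l) (by ring) (by ring)
    (lvl_dvd_lcm M q l hq hl hne) S (const_mem_of_beta M q l h1) ?_ ?_ ?_
  · rw [jBar_top_eq_beta]
    exact h1 _
  · have : jBar (M * q * l) l ⟨M * q, by ring⟩ = heckeBetaBar Kb (M * q) l (jF (M * q)) := by
      apply Subtype.ext
      rw [coe_heckeBetaBar, coe_jBar, RED.ES.coe_jF, jqNModC]
    rw [this]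
    exact h1 _
  · have : jBar (M * q * l) q ⟨M * l, by ring⟩ = betaUp M q l (jF (M * l)) := by
      apply Subtype.ext
      rw [coe_betaUp, coe_jBar, RED.ES.coe_jF, jqNModC]
    rw [this]
    exact h2 _

theorem sq_deg_A (hq : q.Prime) (hl : l.Prime) (hne : q ≠ l) :
    finrankAlong Kb (heckeAlphaBar Kb (M * q) l) = finrankAlong Kb (heckeAlphaBar Kb M l) :=
  finrankAlong_alpha_eq M q l hq hl hne

theorem sq_deg_B (hq : q.Prime) (hl : l.Prime) (hne : q ≠ l) :
    finrankAlong Kb (heckeBetaBar Kb (M * q) l) = finrankAlong Kb (heckeBetaBar Kb M l) := by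
  rw [S36.Kum.finrankAlong_beta_eq_alpha' _ _ hl, S36.Kum.finrankAlong_beta_eq_alpha' _ _ hl]
  exact finrankAlong_alpha_eq M q l hq hl hne

end Squares

section OneStep

variable (M q l : ℕ) [NeZero M] [NeZero q] [NeZero l]

/-- the identification `J₀(M q l) = J₀(M l q)`. -/
abbrev swJ : JZero (M * q * l) ≃+ JZero (M * l * q) := castJ (Nat.mul_right_comm M q l)

theorem swJ_symm_apply (y : JZero (M * l * q)) : (swJ M q l).symm y = swJ M l q y :=
  castJ_symm_apply _ y

theorem swJ_swJ (y : JZero (M * q * l)) : swJ M l q (swJ M q l y) = y := by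
  rw [← swJ_symm_apply, AddEquiv.symm_apply_apply]

/-! ### pull - pull -/

theorem swJ_pullA_pullA (x : JZero M) :
    swJ M q l (pullA (M * q) l (pullA M q x)) = pullA (M * l) q (pullA M l x) := by
  show castJ _ (jPull (heckeAlphaBar Kb (M * q) l) (jPull (heckeAlphaBar Kb M q) x)) =
    jPull (heckeAlphaBar Kb (M * l) q) (jPull (heckeAlphaBar Kb M l) x)
  rw [← jPull_comp, ← jPull_comp]
  refine castJ_jPull _ _ _ (fun z => ?_) x
  simp only [AlgHom.comp_apply, coe_heckeAlphaBar]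

theorem swJ_pullA_pullB (x : JZero M) :
    swJ M q l (pullA (M * q) l (pullB M q x)) = pullB (M * l) q (pullA M l x) := by
  show castJ _ (jPull (heckeAlphaBar Kb (M * q) l) (jPull (heckeBetaBar Kb M q) x)) =
    jPull (heckeBetaBar Kb (M * l) q) (jPull (heckeAlphaBar Kb M l) x)
  rw [← jPull_comp, ← jPull_comp]
  refine castJ_jPull _ _ _ (fun z => ?_) x
  simp only [AlgHom.comp_apply, coe_heckeAlphaBar, coe_heckeBetaBar]

theorem swJ_pullB_pullA (x : JZero M) :
    swJ M q l (pullB (M * q) l (pullA M q x)) = pullA (M * l) q (pullB M l x) := by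
  show castJ _ (jPull (heckeBetaBar Kb (M * q) l) (jPull (heckeAlphaBar Kb M q) x)) =
    jPull (heckeAlphaBar Kb (M * l) q) (jPull (heckeBetaBar Kb M l) x)
  rw [← jPull_comp, ← jPull_comp]
  refine castJ_jPull _ _ _ (fun z => ?_) x
  simp only [AlgHom.comp_apply, coe_heckeAlphaBar, coe_heckeBetaBar]

theorem swJ_pullB_pullB (x : JZero M) :
    swJ M q l (pullB (M * q) l (pullB M q x)) = pullB (M * l) q (pullB M l x) := by
  show castJ _ (jPull (heckeBetaBar Kb (M * q) l) (jPull (heckeBetaBar Kb M q) x)) =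
    jPull (heckeBetaBar Kb (M * l) q) (jPull (heckeBetaBar Kb M l) x)
  rw [← jPull_comp, ← jPull_comp]
  refine castJ_jPull _ _ _ (fun z => ?_) x
  simp only [AlgHom.comp_apply, coe_heckeBetaBar, qExpand_qExpand]
  exact ModularCurve.qExpand_congr (mul_comm l q) _

/-! ### push - push -/

theorem pushA_pushA_swJ (y : JZero (M * q * l)) :
    SS.pushA M l (SS.pushA (M * l) q (swJ M q l y)) = SS.pushA M q (SS.pushA (M * q) l y) := by
  show jPush (heckeAlphaBar Kb M l) (jPush (heckeAlphaBar Kb (M * l) q) (castJ _ y)) =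
    jPush (heckeAlphaBar Kb M q) (jPush (heckeAlphaBar Kb (M * q) l) y)
  rw [← jPush_comp, ← jPush_comp]
  refine jPush_castJ _ _ _ (fun z => ?_) y
  simp only [AlgHom.comp_apply, coe_heckeAlphaBar]

theorem pushA_pushB_swJ (y : JZero (M * q * l)) :
    SS.pushA M l (SS.pushB (M * l) q (swJ M q l y)) = SS.pushB M q (SS.pushA (M * q) l y) := by
  show jPush (heckeAlphaBar Kb M l) (jPush (heckeBetaBar Kb (M * l) q) (castJ _ y)) =
    jPush (heckeBetaBar Kb M q) (jPush (heckeAlphaBar Kb (M * q) l) y)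
  rw [← jPush_comp, ← jPush_comp]
  refine jPush_castJ _ _ _ (fun z => ?_) y
  simp only [AlgHom.comp_apply, coe_heckeAlphaBar, coe_heckeBetaBar]

theorem pushB_pushA_swJ (y : JZero (M * q * l)) :
    SS.pushB M l (SS.pushA (M * l) q (swJ M q l y)) = SS.pushA M q (SS.pushB (M * q) l y) := by
  show jPush (heckeBetaBar Kb M l) (jPush (heckeAlphaBar Kb (M * l) q) (castJ _ y)) =
    jPush (heckeAlphaBar Kb M q) (jPush (heckeBetaBar Kb (M * q) l) y)
  rw [← jPush_comp, ← jPush_comp]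
  refine jPush_castJ _ _ _ (fun z => ?_) y
  simp only [AlgHom.comp_apply, coe_heckeAlphaBar, coe_heckeBetaBar]

theorem pushB_pushB_swJ (y : JZero (M * q * l)) :
    SS.pushB M l (SS.pushB (M * l) q (swJ M q l y)) = SS.pushB M q (SS.pushB (M * q) l y) := by
  show jPush (heckeBetaBar Kb M l) (jPush (heckeBetaBar Kb (M * l) q) (castJ _ y)) =
    jPush (heckeBetaBar Kb M q) (jPush (heckeBetaBar Kb (M * q) l) y)
  rw [← jPush_comp, ← jPush_comp]
  refine jPush_castJ _ _ _ (fun z => ?_) y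
  simp only [AlgHom.comp_apply, coe_heckeBetaBar, qExpand_qExpand]
  exact ModularCurve.qExpand_congr (mul_comm l q) _

/-! ### push - pull (base change) -/

theorem swJ_pullA_eq (z : JZero (M * l)) :
    swJ M l q (pullA (M * l) q z) = jPull (alphaUp M q l) z := by
  refine castJ_jPull _ _ _ (fun x => ?_) z
  rw [coe_alphaUp, coe_heckeAlphaBar]

theorem swJ_pullB_eq (z : JZero (M * l)) :
    swJ M l q (pullB (M * l) q z) = jPull (betaUp M q l) z := by
  refine castJ_jPull _ _ _ (fun x => ?_) z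
  rw [coe_betaUp, coe_heckeBetaBar]

variable {q l}

/-- `α_{l *} α_q^* = α_q^* α_{l *}` -/
theorem pushA_swJ_pullA (hq : q.Prime) (hl : l.Prime) (hne : q ≠ l) (z : JZero (M * l)) :
    SS.pushA (M * q) l (swJ M l q (pullA (M * l) q z)) = pullA M q (SS.pushA M l z) := by
  rw [swJ_pullA_eq]
  exact (jPull_jPush_of_square _ _ _ _ (sq_comm_AA M q l) (sq_gen_AA M q l hq hl hne)
    (sq_deg_A M q l hq hl hne) z).symm

/-- `α_{l *} β_q^* = β_q^* α_{l *}` -/
theorem pushA_swJ_pullB (hq : q.Prime) (hl : l.Prime) (hne : q ≠ l) (z : JZero (M * l)) :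
    SS.pushA (M * q) l (swJ M l q (pullB (M * l) q z)) = pullB M q (SS.pushA M l z) := by
  rw [swJ_pullB_eq]
  exact (jPull_jPush_of_square _ _ _ _ (sq_comm_AB M q l) (sq_gen_AB M q l)
    (sq_deg_A M q l hq hl hne) z).symm

/-- `β_{l *} α_q^* = α_q^* β_{l *}` -/
theorem pushB_swJ_pullA (hq : q.Prime) (hl : l.Prime) (hne : q ≠ l) (z : JZero (M * l)) :
    SS.pushB (M * q) l (swJ M l q (pullA (M * l) q z)) = pullA M q (SS.pushB M l z) := by
  rw [swJ_pullA_eq]
  exact (jPull_jPush_of_square _ _ _ _ (sq_comm_BA M q l) (sq_gen_BA M q l)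
    (sq_deg_B M q l hq hl hne) z).symm

/-- `β_{l *} β_q^* = β_q^* β_{l *}` -/
theorem pushB_swJ_pullB (hq : q.Prime) (hl : l.Prime) (hne : q ≠ l) (z : JZero (M * l)) :
    SS.pushB (M * q) l (swJ M l q (pullB (M * l) q z)) = pullB M q (SS.pushB M l z) := by
  rw [swJ_pullB_eq]
  exact (jPull_jPush_of_square _ _ _ _ (sq_comm_BB M q l) (sq_gen_BB M q l hq hl hne)
    (sq_deg_B M q l hq hl hne) z).symm

end OneStep

end Fermat.Agent.ML
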