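import Fermat.Agent.ML.Deg.CommTwo

/-!
# ML / Deg / CommTower : the degeneracy maps at `q` on the whole Taylor-Wiles tower

`lvl (L * q) l i = lvl L l i * q`;  `upA, upB : J₀(lvl L l i) → J₀(lvl (L q) l i)` (`α_q^*`, `β_q^*`),
`dnA, dnB : J₀(lvl (L q) l i) → J₀(lvl L l i)` (`α_{q *}`, `β_{q *}`) and their commutation with
`RIB.iot`, `RIB.Pii` of the step `i → i + 1` of the tower.
-/

set_option autoImplicit false
set_option linter.style.haveILetI false
set_option linter.unusedSectionVars false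

noncomputable section

open AlgebraicCurve ModularCurve

namespace Fermat.Agent.ML

open Fermat.Agent.S24 Fermat.Agent.RIB Fermat.Agent.GAL Fermat.Agent.GAL.PC
  Fermat.Agent.GAL.HeckeComm Fermat.Agent.GAL.FFBC Fermat.Agent.GAL.HeckeInputs

local notation "GQ" => (AlgebraicClosure ℚ ≃ₐ[ℚ] AlgebraicClosure ℚ)

section CastMaps

variable {N N' : ℕ} [NeZero N] [NeZero N'] (c : ℕ) [NeZero c]

theorem castJ_pullA (h : N = N') (h' : N * c = N' * c) (x : JZero N) :
    castJ h' (pullA N c x) = pullA N' c (castJ h x) := by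
  subst h; rfl

theorem castJ_pullB (h : N = N') (h' : N * c = N' * c) (x : JZero N) :
    castJ h' (pullB N c x) = pullB N' c (castJ h x) := by
  subst h; rfl

theorem castJ_pushA (h : N = N') (h' : N * c = N' * c) (y : JZero (N * c)) :
    castJ h (SS.pushA N c y) = SS.pushA N' c (castJ h' y) := by
  subst h; rfl

theorem castJ_pushB (h : N = N') (h' : N * c = N' * c) (y : JZero (N * c)) :
    castJ h (SS.pushB N c y) = SS.pushB N' c (castJ h' y) := by
  subst h; rfl

theorem castJ_iot (h : N = N') (h' : N * c * c = N' * c * c) (j : Fin 3) (x : JZero N) :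
    castJ h' (iot N c j x) = iot N' c j (castJ h x) := by
  subst h; rfl

theorem castJ_Pii (h : N = N') (h' : N * c * c = N' * c * c) (j : Fin 3) (y : JZero (N * c * c)) :
    castJ h (Pii N c j y) = Pii N' c j (castJ h' y) := by
  subst h; rfl

end CastMaps

section Aux

variable (N q c : ℕ) [NeZero N] [NeZero q] [NeZero c] {Nq : ℕ} [NeZero Nq]

theorem castJ_pullA_iot (hNq : N * q = Nq) (hT : N * c * c * q = Nq * c * c) (j : Fin 3)
    (x : JZero N) :
    castJ hT (pullA (N * c * c) q (iot N c j x)) = iot Nq c j (castJ hNq (pullA N q x)) := by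
  subst hNq
  rw [castJ_rfl, ← sw2_iot_pullA, castJ_castJ, castJ_rfl]

theorem castJ_pullB_iot (hNq : N * q = Nq) (hT : N * c * c * q = Nq * c * c) (j : Fin 3)
    (x : JZero N) :
    castJ hT (pullB (N * c * c) q (iot N c j x)) = iot Nq c j (castJ hNq (pullB N q x)) := by
  subst hNq
  rw [castJ_rfl, ← sw2_iot_pullB, castJ_castJ, castJ_rfl]

theorem Pii_pushA_castJ (hNq : N * q = Nq) (hT : N * c * c * q = Nq * c * c) (j : Fin 3)
    (y : JZero (Nq * c * c)) :
    Pii N c j (SS.pushA (N * c * c) q ((castJ hT).symm y)) =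
      SS.pushA N q ((castJ hNq).symm (Pii Nq c j y)) := by
  subst hNq
  rw [castJ_symm_apply, castJ_symm_apply, castJ_rfl, ← Pii_pushA_sw2]

theorem Pii_pushB_castJ (hNq : N * q = Nq) (hT : N * c * c * q = Nq * c * c) (j : Fin 3)
    (y : JZero (Nq * c * c)) :
    Pii N c j (SS.pushB (N * c * c) q ((castJ hT).symm y)) =
      SS.pushB N q ((castJ hNq).symm (Pii Nq c j y)) := by
  subst hNq
  rw [castJ_symm_apply, castJ_symm_apply, castJ_rfl, ← Pii_pushB_sw2]

variable {q c}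

theorem Pii_castJ_pullA (hq : q.Prime) (hc : c.Prime) (hne : q ≠ c) (hNq : N * q = Nq)
    (hT : N * c * c * q = Nq * c * c) (j : Fin 3) (z : JZero (N * c * c)) :
    Pii Nq c j (castJ hT (pullA (N * c * c) q z)) = castJ hNq (pullA N q (Pii N c j z)) := by
  subst hNq
  rw [castJ_rfl, ← Pii_sw2_symm_pullA N hq hc hne, sw2_symm_apply]

theorem Pii_castJ_pullB (hq : q.Prime) (hc : c.Prime) (hne : q ≠ c) (hNq : N * q = Nq)
    (hT : N * c * c * q = Nq * c * c) (j : Fin 3) (z : JZero (N * c * c)) :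
    Pii Nq c j (castJ hT (pullB (N * c * c) q z)) = castJ hNq (pullB N q (Pii N c j z)) := by
  subst hNq
  rw [castJ_rfl, ← Pii_sw2_symm_pullB N hq hc hne, sw2_symm_apply]

theorem pushA_castJ_iot (hq : q.Prime) (hc : c.Prime) (hne : q ≠ c) (hNq : N * q = Nq)
    (hT : N * c * c * q = Nq * c * c) (j : Fin 3) (w : JZero Nq) :
    SS.pushA (N * c * c) q ((castJ hT).symm (iot Nq c j w)) =
      iot N c j (SS.pushA N q ((castJ hNq).symm w)) := by
  subst hNq
  rw [castJ_symm_apply, castJ_symm_apply, castJ_rfl, ← pushA_sw2_iot N hq hc hne]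

theorem pushB_castJ_iot (hq : q.Prime) (hc : c.Prime) (hne : q ≠ c) (hNq : N * q = Nq)
    (hT : N * c * c * q = Nq * c * c) (j : Fin 3) (w : JZero Nq) :
    SS.pushB (N * c * c) q ((castJ hT).symm (iot Nq c j w)) =
      iot N c j (SS.pushB N q ((castJ hNq).symm w)) := by
  subst hNq
  rw [castJ_symm_apply, castJ_symm_apply, castJ_rfl, ← pushB_sw2_iot N hq hc hne]

end Aux

theorem lvl_mul (L q : ℕ) (l : ℕ → ℕ) (i : ℕ) : lvl L l i * q = lvl (L * q) l i := by
  induction i with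
  | zero => rfl
  | succ i ih => rw [lvl_succ, lvl_succ, ← ih]; ring

section Tower

variable (L q : ℕ) (l : ℕ → ℕ) [NeZero L] [NeZero q] [∀ i, NeZero (l i)]

/-- the identification `J₀(lvl L l i * q) = J₀(lvl (L q) l i)`. -/
abbrev twJ (i : ℕ) : JZero (lvl L l i * q) ≃+ JZero (lvl (L * q) l i) := castJ (lvl_mul L q l i)

/-- `α_q^*` on the tower -/
def upA (i : ℕ) : JZero (lvl L l i) →+ JZero (lvl (L * q) l i) :=
  (twJ L q l i).toAddMonoidHom.comp (pullA (lvl L l i) q)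

/-- `β_q^*` on the tower -/
def upB (i : ℕ) : JZero (lvl L l i) →+ JZero (lvl (L * q) l i) :=
  (twJ L q l i).toAddMonoidHom.comp (pullB (lvl L l i) q)

/-- `α_{q *}` on the tower -/
def dnA (i : ℕ) : JZero (lvl (L * q) l i) →+ JZero (lvl L l i) :=
  (SS.pushA (lvl L l i) q).comp (twJ L q l i).symm.toAddMonoidHom

/-- `β_{q *}` on the tower -/
def dnB (i : ℕ) : JZero (lvl (L * q) l i) →+ JZero (lvl L l i) :=
  (SS.pushB (lvl L l i) q).comp (twJ L q l i).symm.toAddMonoidHom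

theorem upA_apply (i : ℕ) (x : JZero (lvl L l i)) :
    upA L q l i x = twJ L q l i (pullA (lvl L l i) q x) := rfl

theorem upB_apply (i : ℕ) (x : JZero (lvl L l i)) :
    upB L q l i x = twJ L q l i (pullB (lvl L l i) q x) := rfl

theorem dnA_apply (i : ℕ) (y : JZero (lvl (L * q) l i)) :
    dnA L q l i y = SS.pushA (lvl L l i) q ((twJ L q l i).symm y) := rfl

theorem dnB_apply (i : ℕ) (y : JZero (lvl (L * q) l i)) :
    dnB L q l i y = SS.pushB (lvl L l i) q ((twJ L q l i).symm y) := rfl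

theorem upA_smul (i : ℕ) (σ : GQ) (x : JZero (lvl L l i)) :
    upA L q l i (σ • x) = σ • upA L q l i x := by
  rw [upA_apply, upA_apply, pullA_smul, castJ_smul]

theorem upB_smul (i : ℕ) (σ : GQ) (x : JZero (lvl L l i)) :
    upB L q l i (σ • x) = σ • upB L q l i x := by
  rw [upB_apply, upB_apply, pullB_smul, castJ_smul]

theorem dnA_smul (i : ℕ) (σ : GQ) (y : JZero (lvl (L * q) l i)) :
    dnA L q l i (σ • y) = σ • dnA L q l i y := by
  rw [dnA_apply, dnA_apply, castJ_symm_apply, castJ_symm_apply, castJ_smul, SS.pushA_smul]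

theorem dnB_smul (i : ℕ) (σ : GQ) (y : JZero (lvl (L * q) l i)) :
    dnB L q l i (σ • y) = σ • dnB L q l i y := by
  rw [dnB_apply, dnB_apply, castJ_symm_apply, castJ_symm_apply, castJ_smul, SS.pushB_smul]

theorem dnA_upA (i : ℕ) (x : JZero (lvl L l i)) :
    dnA L q l i (upA L q l i x) = SS.pushA (lvl L l i) q (pullA (lvl L l i) q x) := by
  rw [dnA_apply, upA_apply, AddEquiv.symm_apply_apply]

theorem dnA_upB (i : ℕ) (x : JZero (lvl L l i)) :
    dnA L q l i (upB L q l i x) = SS.pushA (lvl L l i) q (pullB (lvl L l i) q x) := by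
  rw [dnA_apply, upB_apply, AddEquiv.symm_apply_apply]

theorem dnB_upA (i : ℕ) (x : JZero (lvl L l i)) :
    dnB L q l i (upA L q l i x) = SS.pushB (lvl L l i) q (pullA (lvl L l i) q x) := by
  rw [dnB_apply, upA_apply, AddEquiv.symm_apply_apply]

theorem dnB_upB (i : ℕ) (x : JZero (lvl L l i)) :
    dnB L q l i (upB L q l i x) = SS.pushB (lvl L l i) q (pullB (lvl L l i) q x) := by
  rw [dnB_apply, upB_apply, AddEquiv.symm_apply_apply]

/-! ### pull - pull -/

theorem upA_iot (i : ℕ) (j : Fin 3) (x : JZero (lvl L l i)) :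
    upA L q l (i + 1) (iot (lvl L l i) (l i) j x) =
      iot (lvl (L * q) l i) (l i) j (upA L q l i x) :=
  castJ_pullA_iot (lvl L l i) q (l i) (lvl_mul L q l i) (lvl_mul L q l (i + 1)) j x

theorem upB_iot (i : ℕ) (j : Fin 3) (x : JZero (lvl L l i)) :
    upB L q l (i + 1) (iot (lvl L l i) (l i) j x) =
      iot (lvl (L * q) l i) (l i) j (upB L q l i x) :=
  castJ_pullB_iot (lvl L l i) q (l i) (lvl_mul L q l i) (lvl_mul L q l (i + 1)) j x

/-! ### push - push -/

theorem Pii_dnA (i : ℕ) (j : Fin 3) (y : JZero (lvl (L * q) l (i + 1))) :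
    Pii (lvl L l i) (l i) j (dnA L q l (i + 1) y) =
      dnA L q l i (Pii (lvl (L * q) l i) (l i) j y) :=
  Pii_pushA_castJ (lvl L l i) q (l i) (lvl_mul L q l i) (lvl_mul L q l (i + 1)) j y

theorem Pii_dnB (i : ℕ) (j : Fin 3) (y : JZero (lvl (L * q) l (i + 1))) :
    Pii (lvl L l i) (l i) j (dnB L q l (i + 1) y) =
      dnB L q l i (Pii (lvl (L * q) l i) (l i) j y) :=
  Pii_pushB_castJ (lvl L l i) q (l i) (lvl_mul L q l i) (lvl_mul L q l (i + 1)) j y

/-! ### push at `l i`, pull at `q` -/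

variable {q l}

theorem Pii_upA (hq : q.Prime) (i : ℕ) (hl : (l i).Prime) (hne : q ≠ l i) (j : Fin 3)
    (z : JZero (lvl L l (i + 1))) :
    Pii (lvl (L * q) l i) (l i) j (upA L q l (i + 1) z) =
      upA L q l i (Pii (lvl L l i) (l i) j z) :=
  Pii_castJ_pullA (lvl L l i) hq hl hne (lvl_mul L q l i) (lvl_mul L q l (i + 1)) j z

theorem Pii_upB (hq : q.Prime) (i : ℕ) (hl : (l i).Prime) (hne : q ≠ l i) (j : Fin 3)
    (z : JZero (lvl L l (i + 1))) :
    Pii (lvl (L * q) l i) (l i) j (upB L q l (i + 1) z) =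
      upB L q l i (Pii (lvl L l i) (l i) j z) :=
  Pii_castJ_pullB (lvl L l i) hq hl hne (lvl_mul L q l i) (lvl_mul L q l (i + 1)) j z

/-! ### push at `q`, pull at `l i` -/

theorem dnA_iot (hq : q.Prime) (i : ℕ) (hl : (l i).Prime) (hne : q ≠ l i) (j : Fin 3)
    (w : JZero (lvl (L * q) l i)) :
    dnA L q l (i + 1) (iot (lvl (L * q) l i) (l i) j w) =
      iot (lvl L l i) (l i) j (dnA L q l i w) :=
  pushA_castJ_iot (lvl L l i) hq hl hne (lvl_mul L q l i) (lvl_mul L q l (i + 1)) j w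

theorem dnB_iot (hq : q.Prime) (i : ℕ) (hl : (l i).Prime) (hne : q ≠ l i) (j : Fin 3)
    (w : JZero (lvl (L * q) l i)) :
    dnB L q l (i + 1) (iot (lvl (L * q) l i) (l i) j w) =
      iot (lvl L l i) (l i) j (dnB L q l i w) :=
  pushB_castJ_iot (lvl L l i) hq hl hne (lvl_mul L q l i) (lvl_mul L q l (i + 1)) j w

end Tower

/-! ### `θ`-parts -/

section Theta

variable (L q : ℕ) (l : ℕ → ℕ) [NeZero L] [NeZero q] [∀ i, NeZero (l i)]
  {p : ℕ} {S : Set ℕ} {θ : ℕ → ℤ}

theorem not_dvd_lvl_of_not_dvd_lvl_mul {i r : ℕ} (h : ¬ r ∣ lvl (L * q) l i * p) :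
    ¬ r ∣ lvl L l i * p := fun h' => h (by
  rw [← lvl_mul]
  exact h'.trans (Nat.mul_dvd_mul_right (Dvd.intro _ rfl) p))

theorem upA_mem_thetaPart (i : ℕ) (hS : ∀ r : ℕ, r.Prime → r ∉ S → ¬ r ∣ lvl (L * q) l i * p)
    {x : JZero (lvl L l i)} (hx : x ∈ thetaPart (lvl L l i) p S θ) :
    upA L q l i x ∈ thetaPart (lvl (L * q) l i) p S θ :=
  map_mem_thetaPart_of_equivariant (upA L q l i) (upA_smul L q l i)
    (fun r hr h => ⟨not_dvd_lvl_of_not_dvd_lvl_mul L q l (hS r hr h), hS r hr h⟩) hx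

theorem upB_mem_thetaPart (i : ℕ) (hS : ∀ r : ℕ, r.Prime → r ∉ S → ¬ r ∣ lvl (L * q) l i * p)
    {x : JZero (lvl L l i)} (hx : x ∈ thetaPart (lvl L l i) p S θ) :
    upB L q l i x ∈ thetaPart (lvl (L * q) l i) p S θ :=
  map_mem_thetaPart_of_equivariant (upB L q l i) (upB_smul L q l i)
    (fun r hr h => ⟨not_dvd_lvl_of_not_dvd_lvl_mul L q l (hS r hr h), hS r hr h⟩) hx

theorem dnA_mem_thetaPart (i : ℕ) (hS : ∀ r : ℕ, r.Prime → r ∉ S → ¬ r ∣ lvl (L * q) l i * p)
    {y : JZero (lvl (L * q) l i)} (hy : y ∈ thetaPart (lvl (L * q) l i) p S θ) :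
    dnA L q l i y ∈ thetaPart (lvl L l i) p S θ :=
  map_mem_thetaPart_of_equivariant (dnA L q l i) (dnA_smul L q l i)
    (fun r hr h => ⟨hS r hr h, not_dvd_lvl_of_not_dvd_lvl_mul L q l (hS r hr h)⟩) hy

theorem dnB_mem_thetaPart (i : ℕ) (hS : ∀ r : ℕ, r.Prime → r ∉ S → ¬ r ∣ lvl (L * q) l i * p)
    {y : JZero (lvl (L * q) l i)} (hy : y ∈ thetaPart (lvl (L * q) l i) p S θ) :
    dnB L q l i y ∈ thetaPart (lvl L l i) p S θ :=
  map_mem_thetaPart_of_equivariant (dnB L q l i) (dnB_smul L q l i)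
    (fun r hr h => ⟨hS r hr h, not_dvd_lvl_of_not_dvd_lvl_mul L q l (hS r hr h)⟩) hy

end Theta

end Fermat.Agent.ML
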